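import Mathlib
import Fermat.Agent.MU.Lib.FF.Kum.KumDefs

section MergeWrap_Lib_FF_Kum_KumTransfer -- from Lib/FF/Kum/KumTransfer.lean

set_option autoImplicit false
set_option linter.style.haveILetI false

noncomputable section

namespace Fermat.Agent.FFKum

open ModularCurve AlgebraicCurve Fermat.Agent.F3T Fermat.Agent.FlatMod Fermat.Agent.FF

local notation "GK" => (AlgebraicClosure ℚ ≃ₐ[ℚ] AlgebraicClosure ℚ)

/-- the Galois action on the extension module `W × ZMod n` of a cocycle `c`. -/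
def extAct {W : Type} [AddCommGroup W] (actW : GK → W → W) (n : ℕ) (c : GK → W) (σ : GK)
    (x : W × ZMod n) : W × ZMod n :=
  (actW σ x.1 + (x.2.val) • c σ, x.2)

@[simp]
theorem extAct_fst {W : Type} [AddCommGroup W] (actW : GK → W → W) (n : ℕ) (c : GK → W) (σ : GK)
    (x : W × ZMod n) : (extAct actW n c σ x).1 = actW σ x.1 + (x.2.val) • c σ := rfl

@[simp]
theorem extAct_snd {W : Type} [AddCommGroup W] (actW : GK → W → W) (n : ℕ) (c : GK → W) (σ : GK)
    (x : W × ZMod n) : (extAct actW n c σ x).2 = x.2 := rfl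

/-- the action on the Kummer module is the action on the extension module of the Kummer
cocycle. -/
theorem kumAct_eq_extAct (N ℓ k : ℕ) (R₀ : JZero N)
    (h : ∀ σ : GK, σ • (ℓ ^ k • R₀) = ℓ ^ k • R₀) :
    kumAct N ℓ k R₀ h = extAct (torsAct N ((ℓ : ℤ) ^ k)) (ℓ ^ k) (kumCoc N ℓ k R₀ h) := rfl

/-- **Sub-objects**: the extension module of `c'` embeds into the extension module of `c` as soon
as `f : W' →+ W` is injective, equivariant, and `f ∘ c' = c`. -/
theorem isFlat_extAct_of_injective {p : ℕ} [Fact p.Prime] {W W' : Type} [AddCommGroup W]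
    [AddCommGroup W']
    {actW : GK → W → W} {actW' : GK → W' → W'} {n : ℕ} {c : GK → W} {c' : GK → W'}
    (h : IsFlatGaloisModule p (W × ZMod n) (extAct actW n c))
    (f : W' →+ W) (hf : Function.Injective f) (hact : ∀ σ x, f (actW' σ x) = actW σ (f x))
    (hc : ∀ σ, f (c' σ) = c σ) :
    IsFlatGaloisModule p (W' × ZMod n) (extAct actW' n c') := by
  refine isFlat_of_injective_aux h (f.prodMap (AddMonoidHom.id (ZMod n))) ?_ ?_
  · rintro ⟨w, m⟩ ⟨w', m'⟩ hww
    have h1 : f w = f w' := congrArg Prod.fst hww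
    have h2 : m = m' := congrArg Prod.snd hww
    rw [hf h1, h2]
  · rintro σ ⟨w, m⟩
    refine Prod.ext ?_ rfl
    show f (actW' σ w + m.val • c' σ) = actW σ (f w) + m.val • c σ
    rw [map_add, map_nsmul, hact, hc]

/-- **FL-K for a sub-module** `W ⊆ J₀(N)[ℓ^k]` containing the values of the Kummer cocycle (the
form used by the descent: `W` = the Eisenstein part). -/
theorem isFlat_extAct_of_flatKummerAt {N ℓ k : ℕ} [Fact ℓ.Prime] (h : FlatKummerAt N ℓ k)
    {W : Type} [AddCommGroup W] (actW : GK → W → W) (ι : W →+ JZero N)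
    (hι : Function.Injective ι) (hιact : ∀ σ w, ι (actW σ w) = σ • ι w)
    (hιtors : ∀ w, (ℓ ^ k) • ι w = 0)
    (R : JZero N) (hR : ∀ σ : GK, σ • ((ℓ ^ k) • R) = (ℓ ^ k) • R)
    (c : GK → W) (hc : ∀ σ, ι (c σ) = σ • R - R) :
    IsFlatGaloisModule ℓ (W × ZMod (ℓ ^ k)) (extAct actW (ℓ ^ k) c) := by
  have hmem : ∀ w, ι w ∈ Submodule.torsionBy ℤ (JZero N) ((ℓ : ℤ) ^ k) := by
    intro w
    rw [mem_torsionBy_pow_iff]
    exact hιtors w
  let f : W →+ ↥(Submodule.torsionBy ℤ (JZero N) ((ℓ : ℤ) ^ k)) :=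
    { toFun := fun w => ⟨ι w, hmem w⟩
      map_zero' := Subtype.ext (map_zero ι)
      map_add' := fun x y => Subtype.ext (map_add ι x y) }
  have h0 := h R hR
  rw [kumAct_eq_extAct] at h0
  refine isFlat_extAct_of_injective h0 f ?_ ?_ ?_
  · intro x y hxy
    exact hι (congrArg Subtype.val hxy)
  · intro σ x
    exact Subtype.ext (hιact σ x)
  · intro σ
    exact Subtype.ext (hc σ)

/-- **Transfer.**  FL-K at level `N` follows from FL-K at level `r N`. -/
theorem flatKummerAt_of_mul (N r : ℕ) [NeZero N] [NeZero r] (hc : TransferCore N r)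
    (ℓ k : ℕ) [Fact ℓ.Prime] (h : FlatKummerAt (r * N) ℓ k) : FlatKummerAt N ℓ k := by
  intro R hR
  have hdvd : N ∣ r * N := Dvd.intro_left r rfl
  have hℓ : 0 < ℓ ^ k := pow_pos (Fact.out : ℓ.Prime).pos k
  have hR' : ∀ σ : GK, σ • ((ℓ ^ k) • pullJZero hdvd R) = (ℓ ^ k) • pullJZero hdvd R := by
    intro σ
    rw [← map_nsmul, ← pullJZero_smul, hR σ]
  have h0 := h (pullJZero hdvd R) hR'
  rw [kumAct_eq_extAct] at h0 ⊢
  refine isFlat_extAct_of_injective h0 (pullTors hdvd ((ℓ : ℤ) ^ k)) ?_ ?_ ?_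
  · rw [injective_iff_map_eq_zero]
    intro x hx
    apply Subtype.ext
    have hx0 : pullJZero hdvd (x : JZero N) = 0 := congrArg Subtype.val hx
    have hxt : (ℓ ^ k) • (x : JZero N) = 0 := (mem_torsionBy_pow_iff N ℓ k _).mp x.2
    exact pullJZero_eq_zero_of_torsion N r hc (ℓ ^ k) hℓ (x : JZero N) hxt hx0
  · intro σ x
    apply Subtype.ext
    exact pullJZero_smul hdvd σ (x : JZero N)
  · intro σ
    apply Subtype.ext
    show pullJZero hdvd (σ • R - R) = σ • pullJZero hdvd R - pullJZero hdvd R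
    rw [map_sub, pullJZero_smul]

/-- **Reduction to the auxiliary levels.**  It suffices to treat the levels `M` with `4 ∣ M` or
`9 ∣ M` (and `ℓ ∤ M`). -/
theorem flatKummerAt_of_aux (N ℓ k : ℕ) [NeZero N] [Fact ℓ.Prime] (hℓN : ¬ ℓ ∣ N)
    (h : ∀ M : ℕ, M ≠ 0 → ¬ ℓ ∣ M → (4 ∣ M ∨ 9 ∣ M) → FlatKummerAt M ℓ k) :
    FlatKummerAt N ℓ k := by
  have hℓ : ℓ.Prime := Fact.out
  by_cases h2 : ℓ = 2
  · -- use `9 N`
    refine flatKummerAt_of_mul N 9 (transferCore_nine N) ℓ k
      (h (9 * N) (mul_ne_zero (by norm_num) (NeZero.ne N)) ?_ (Or.inr (dvd_mul_right 9 N)))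
    intro hd
    rcases (Nat.Prime.dvd_mul hℓ).mp hd with hd | hd
    · rw [h2] at hd
      norm_num at hd
    · exact hℓN hd
  · -- use `4 N`
    refine flatKummerAt_of_mul N 4 (transferCore_four N) ℓ k
      (h (4 * N) (mul_ne_zero (by norm_num) (NeZero.ne N)) ?_ (Or.inl (dvd_mul_right 4 N)))
    intro hd
    rcases (Nat.Prime.dvd_mul hℓ).mp hd with hd | hd
    · have h4 : ℓ ∣ 2 ^ 2 := by norm_num; exact hd
      have := (Nat.prime_dvd_prime_iff_eq hℓ Nat.prime_two).mp (hℓ.dvd_of_dvd_pow h4)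
      exact h2 this
    · exact hℓN hd

end Fermat.Agent.FFKum
end
end MergeWrap_Lib_FF_Kum_KumTransfer
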